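/-
S17 / tower H / WALL (global route, architect helper710): leaves A8 and A9 (helper410).

* `minorPolyBeta : Wall.MinorPolyBetaStatement K` — the `κ`-minors of `betaMat · y` are values of
  polynomials in the `d` slots `u`, multihomogeneous of multidegree `(κ, …, κ)`;
* `minorPolyA : Wall.MinorPolyAStatement K` — the `κ`-minors of `wMat (fun _ => a) y` are values
  of polynomials in `a`, homogeneous of degree `κ`.

Both are determinants of matrices of polynomials; `eval` commutes with `det`
(`RingHom.map_det`) and scaling the slots scales every entry by `∏ c_l` (`Matrix.det_smul`).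
-/
import Fermat.Agent.S17.H710.Wall.Defs

set_option autoImplicit false

noncomputable section

namespace Fermat.Agent.S17.H410

open MvPolynomial
open Fermat.Agent.S17.HWall Fermat.Agent.S17.Wall

variable {K : Type*} [Field K]

/-- The polynomial (in the slots `u`) whose value is the entry `betaMat u y s j`. -/
def betaEntryPoly410 {n d : ℕ} {c : Type*} (y : c → Fin n → K)
    (s : Fin d → Fin n × Fin n) (j : c) : MvPolynomial (Fin d × Fin n) K :=
  ∏ i : Fin d, (X (i, (s i).1) * C (y j (s i).2) - X (i, (s i).2) * C (y j (s i).1))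

theorem eval_betaEntryPoly410 {n d : ℕ} {c : Type*} (y : c → Fin n → K)
    (s : Fin d → Fin n × Fin n) (j : c) (u : Fin d → Fin n → K) (t : Fin d → K) :
    eval (fun q : Fin d × Fin n => t q.1 * u q.1 q.2) (betaEntryPoly410 y s j)
      = (∏ l, t l) * betaMat u y s j := by
  unfold betaEntryPoly410 betaMat wedge
  rw [map_prod, ← Finset.prod_mul_distrib]
  refine Finset.prod_congr rfl fun i _ => ?_
  simp only [map_sub, map_mul, eval_X, eval_C]
  ring

theorem eval_betaEntryPoly410' {n d : ℕ} {c : Type*} (y : c → Fin n → K)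
    (s : Fin d → Fin n × Fin n) (j : c) (u : Fin d → Fin n → K) :
    eval (fun q : Fin d × Fin n => u q.1 q.2) (betaEntryPoly410 y s j) = betaMat u y s j := by
  have h := eval_betaEntryPoly410 y s j u (fun _ => 1)
  simpa using h

/-- The polynomial (in `a`) whose value is the entry `wMat (fun _ => a) y (ρ, α) j`. -/
def wEntryPoly410 {n e : ℕ} {c : Type*} (y : c → Fin n → K)
    (α : Fin e → Fin n) (j : c) : MvPolynomial (Fin 1 × Fin n) K :=
  (∑ i : Fin n, X ((0 : Fin 1), i) * C (y j i)) * C (∏ k, y j (α k))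

theorem eval_wEntryPoly410 {n e : ℕ} {c : Type*} (y : c → Fin n → K)
    (α : Fin e → Fin n) (j : c) (a : Fin 1 → Fin n → K) (t : Fin 1 → K) (ρ : Unit) :
    eval (fun q : Fin 1 × Fin n => t q.1 * a q.1 q.2) (wEntryPoly410 y α j)
      = (∏ l, t l) * wMat (e := e) (fun _ : Unit => a 0) y (ρ, α) j := by
  unfold wEntryPoly410 wMat dot
  simp only [map_mul, map_sum, eval_X, eval_C, Fin.prod_univ_one, dotProduct]
  have h : ∑ x, t 0 * a 0 x * y j x = t 0 * ∑ x, a 0 x * y j x := by
    rw [Finset.mul_sum]
    exact Finset.sum_congr rfl fun i _ => by ring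
  rw [h]
  ring

/-- The determinant of a matrix of polynomials all of whose entries scale by `∏ t_l` scales by
`∏ t_l ^ κ`. -/
theorem eval_det_scale410 {ι : Type*} {κ : ℕ} (M : Matrix (Fin κ) (Fin κ) (MvPolynomial ι K))
    (A : Matrix (Fin κ) (Fin κ) K) (f : ι → K) (r : K)
    (h : ∀ a b, eval f (M a b) = r * A a b) :
    eval f M.det = r ^ κ * A.det := by
  have h1 : eval f M.det = ((eval f).mapMatrix M).det := RingHom.map_det (eval f) M
  have h2 : (eval f).mapMatrix M = r • A := by
    ext a b
    simp [h a b]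
  rw [h1, h2, Matrix.det_smul, Fintype.card_fin]

section Leaves

variable (K)

/-- **Wall leaf A8.** -/
theorem minorPolyBeta : MinorPolyBetaStatement K := by
  intro n d c _ y κ
  refine ⟨fun j => (Matrix.of fun a b => betaEntryPoly410 y (j.1 a) (j.2 b)).det, ?_, ?_⟩
  · intro j u t
    have h0 := eval_det_scale410
      (Matrix.of fun a b => betaEntryPoly410 y (j.1 a) (j.2 b))
      (Matrix.of fun a b => betaMat u y (j.1 a) (j.2 b))
      (fun q : Fin d × Fin n => t q.1 * u q.1 q.2) (∏ l, t l)
      (fun a b => by simpa using eval_betaEntryPoly410 y (j.1 a) (j.2 b) u t)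
    have h1 := eval_det_scale410
      (Matrix.of fun a b => betaEntryPoly410 y (j.1 a) (j.2 b))
      (Matrix.of fun a b => betaMat u y (j.1 a) (j.2 b))
      (fun q : Fin d × Fin n => u q.1 q.2) 1
      (fun a b => by simpa using eval_betaEntryPoly410' y (j.1 a) (j.2 b) u)
    rw [h0, h1, one_pow, one_mul, Finset.prod_pow]
  · intro u j
    have h1 := eval_det_scale410
      (Matrix.of fun a b => betaEntryPoly410 y (j.1 a) (j.2 b))
      (Matrix.of fun a b => betaMat u y (j.1 a) (j.2 b))
      (fun q : Fin d × Fin n => u q.1 q.2) 1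
      (fun a b => by simpa using eval_betaEntryPoly410' y (j.1 a) (j.2 b) u)
    rw [h1, one_pow, one_mul]
    rfl

/-- **Wall leaf A9.** -/
theorem minorPolyA : MinorPolyAStatement K := by
  intro n e c _ y κ
  refine ⟨fun j => (Matrix.of fun a b => wEntryPoly410 y (j.1 a).2 (j.2 b)).det, ?_, ?_⟩
  · intro j u t
    have h0 := eval_det_scale410
      (Matrix.of fun a b => wEntryPoly410 y (j.1 a).2 (j.2 b))
      (Matrix.of fun a b => wMat (e := e) (fun _ : Unit => u 0) y (j.1 a) (j.2 b))
      (fun q : Fin 1 × Fin n => t q.1 * u q.1 q.2) (∏ l, t l)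
      (fun a b => by simpa using eval_wEntryPoly410 y (j.1 a).2 (j.2 b) u t (j.1 a).1)
    have h1 := eval_det_scale410
      (Matrix.of fun a b => wEntryPoly410 y (j.1 a).2 (j.2 b))
      (Matrix.of fun a b => wMat (e := e) (fun _ : Unit => u 0) y (j.1 a) (j.2 b))
      (fun q : Fin 1 × Fin n => u q.1 q.2) 1
      (fun a b => by
        simpa using eval_wEntryPoly410 y (j.1 a).2 (j.2 b) u (fun _ => 1) (j.1 a).1)
    rw [h0, h1, one_pow, one_mul, Finset.prod_pow]
  · intro a j
    have h1 := eval_det_scale410
      (Matrix.of fun a' b => wEntryPoly410 y (j.1 a').2 (j.2 b))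
      (Matrix.of fun a' b => wMat (e := e) (fun _ : Unit => a) y (j.1 a') (j.2 b))
      (fun q : Fin 1 × Fin n => a q.2) 1
      (fun a' b => by
        simpa using eval_wEntryPoly410 y (j.1 a').2 (j.2 b) (fun _ => a) (fun _ => 1) (j.1 a').1)
    rw [h1, one_pow, one_mul]
    rfl

end Leaves

end Fermat.Agent.S17.H410

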