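/-
S17 / tower H / WALL (global route): RANK-EV (helper410).

`E : EmbData K F`, forms `p s` homogeneous of degree `k`, `Q : Fin L → Place K F` injective with
`k * m < L`.  Then the evaluation matrix `(p s (pt (Q t)))_{s,t}` has the same rank as the family
of functions `aeval E.x (p s) ∈ L(k m ∞)`:

  `finrank_span_eval_eq` :
    finrank (span (range fun s t => eval (E.pt (Q t)) (p s)))
      = finrank (span (range fun s => aeval E.x (p s))).

Proof: the graded evaluation `f ↦ (ptScale (Q t) ^ k * gev (Q t) (k m) f)_t` is `K`-linear and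
injective on `L(k m ∞)` (a nonzero section of `O(k m ∞)` has at most `k m` zeros), and maps
`aeval E.x p` to the row of `p` (`H440.eval_pt`).
-/
import Fermat.Agent.S17.H440.EmbGlue

set_option autoImplicit false

noncomputable section

namespace Fermat.Agent.S17.H410

open AlgebraicCurve MvPolynomial
open Fermat.Agent.Lib.RR Fermat.Agent.S17.HWall Fermat.Agent.S17.H440

variable {K F : Type*} [Field K] [Field F] [Algebra K F] [FF1 K F]

/-- The sum of the prime divisors of an injective family of places takes values `≤ 1`. -/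
theorem sum_prim_apply_le_one410 {L : ℕ} (Q : Fin L → Place K F) (hQ : Function.Injective Q)
    (P : Place K F) : (∑ t, prim (Q t) : Divisor K F) P ≤ 1 := by
  classical
  rw [Finsupp.finsetSum_apply]
  by_cases h : ∃ t, Q t = P
  · obtain ⟨t₀, rfl⟩ := h
    rw [Finset.sum_eq_single t₀]
    · rw [prim_apply_self]
    · intro t _ ht
      exact prim_apply_of_ne fun h => ht (hQ h.symm)
    · intro h; exact absurd (Finset.mem_univ _) h
  · push Not at h
    rw [Finset.sum_eq_zero]
    · exact zero_le_one
    · intro t _
      exact prim_apply_of_ne fun h' => h t h'.symm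

theorem sum_prim_apply_eq_zero410 {L : ℕ} (Q : Fin L → Place K F)
    (P : Place K F) (h : ∀ t, Q t ≠ P) : (∑ t, prim (Q t) : Divisor K F) P = 0 := by
  rw [Finsupp.finsetSum_apply]
  exact Finset.sum_eq_zero fun t _ => prim_apply_of_ne fun h' => h t h'.symm

theorem degree_sum_prim410 {L : ℕ} (Q : Fin L → Place K F) :
    Divisor.degree (∑ t, prim (Q t) : Divisor K F) = L := by
  rw [map_sum]
  simp

/-- A nonzero section of `O(d ∞)` has at most `d` zeros. -/
theorem eq_zero_of_gev_eq_zero410 (vinf : Place K F) {d L : ℕ} (Q : Fin L → Place K F)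
    (hQ : Function.Injective Q) (hL : d < L) {f : F}
    (hf : f ∈ riemannRochSpace (d • prim vinf))
    (h : ∀ t, gev vinf (Q t) d f = 0) : f = 0 := by
  by_contra hf0
  have hmem : f ∈ riemannRochSpace (d • prim vinf - ∑ t, prim (Q t)) := by
    rw [mem_riemannRochSpace_iff]
    intro P
    right
    have h1 := (mem_riemannRochSpace_iff.mp hf P).resolve_left hf0
    rw [Finsupp.smul_apply, nsmul_eq_mul] at h1
    rw [Finsupp.sub_apply, Finsupp.smul_apply, nsmul_eq_mul]
    by_cases hP : ∃ t, Q t = P
    · obtain ⟨t₀, rfl⟩ := hP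
      have h2 := (gev_eq_zero_iff vinf (Q t₀) hf hf0).mp (h t₀)
      have h3 := sum_prim_apply_le_one410 Q hQ (Q t₀)
      omega
    · push Not at hP
      rw [sum_prim_apply_eq_zero410 Q P hP]
      omega
  have hdeg : Divisor.degree (d • prim vinf - ∑ t, prim (Q t)) < 0 := by
    rw [map_sub, degree_sum_prim410, map_nsmul, degree_prim']
    simp only [nsmul_eq_mul, mul_one]
    omega
  haveI : HasPrincipalDivisors K F := FF1.hpd
  have := L_eq_bot_of_degree_neg hdeg
  rw [this, Submodule.mem_bot] at hmem
  exact hf0 hmem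

variable (E : EmbData K F)

/-- The graded evaluation at the places `Q t`, as a linear map on `L(k m ∞)`. -/
def evalL410 (k : ℕ) {L : ℕ} (Q : Fin L → Place K F) :
    riemannRochSpace ((k * E.m) • prim E.vinf) →ₗ[K] (Fin L → K) where
  toFun f := fun t => ptScale E (Q t) ^ k * gev E.vinf (Q t) (k * E.m) (f : F)
  map_add' f g := by
    funext t
    simp only [Submodule.coe_add, Pi.add_apply]
    rw [gev_add E.vinf (Q t) f.2 g.2, mul_add]
  map_smul' c f := by
    funext t
    simp only [Submodule.coe_smul, Pi.smul_apply, RingHom.id_apply, smul_eq_mul]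
    rw [gev_smul E.vinf (Q t) c f.2]
    ring

theorem evalL410_injective (k : ℕ) {L : ℕ} (Q : Fin L → Place K F)
    (hQ : Function.Injective Q) (hL : k * E.m < L) :
    Function.Injective (evalL410 E k Q) := by
  rw [← LinearMap.ker_eq_bot, LinearMap.ker_eq_bot']
  intro f hf
  apply Subtype.ext
  refine eq_zero_of_gev_eq_zero410 E.vinf Q hQ hL f.2 fun t => ?_
  have h1 := congrFun hf t
  simp only [evalL410, LinearMap.coe_mk, AddHom.coe_mk, Pi.zero_apply] at h1
  exact (mul_eq_zero.mp h1).resolve_left (pow_ne_zero _ (ptScale_ne_zero E (Q t)))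

/-- **RANK-EV.** -/
theorem finrank_span_eval_eq {σ : Type*} (k : ℕ) (p : σ → MvPolynomial (Fin (E.r + 1)) K)
    (hp : ∀ s, (p s).IsHomogeneous k) {L : ℕ} (Q : Fin L → Place K F)
    (hQ : Function.Injective Q) (hL : k * E.m < L) :
    Module.finrank K (Submodule.span K (Set.range fun s => fun t => eval (E.pt (Q t)) (p s)))
      = Module.finrank K (Submodule.span K (Set.range fun s => aeval E.x (p s))) := by
  set g : σ → riemannRochSpace ((k * E.m) • prim E.vinf) :=
    fun s => ⟨aeval E.x (p s), aeval_mem_L E.vinf (x_mem E) (hp s)⟩ with hg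
  have h1 : (Set.range fun s => fun t => eval (E.pt (Q t)) (p s))
      = (evalL410 E k Q) '' Set.range g := by
    rw [← Set.range_comp]
    congr 1
    funext s
    funext t
    show eval (E.pt (Q t)) (p s) = ptScale E (Q t) ^ k * gev E.vinf (Q t) (k * E.m) (aeval E.x (p s))
    exact eval_pt E (Q t) (hp s)
  have h2 : (Set.range fun s => aeval E.x (p s))
      = (riemannRochSpace ((k * E.m) • prim E.vinf)).subtype '' Set.range g := by
    rw [← Set.range_comp]
    rfl
  rw [h1, h2, ← Submodule.map_span, ← Submodule.map_span]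
  rw [LinearEquiv.finrank_eq (Submodule.equivMapOfInjective _
      (evalL410_injective E k Q hQ hL) _).symm,
    LinearEquiv.finrank_eq (Submodule.equivMapOfInjective _
      (Submodule.injective_subtype _) _).symm]

end Fermat.Agent.S17.H410
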