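/-
S17 / tower H / WALL (global route, architect helper710): leaf G-MINOR-a (helper410).

* `minorA E hBig : Wall.MinorAStatement E`   (`[Infinite K]`, `Big E : 4 g + 1 ≤ m`).

Instance of RANK-EV (`finrank_span_eval_eq`, `RankEv.lean`): the rank of the evaluation matrix of
a family of forms of degree `k` at `> k m` places is the dimension of the span of the
corresponding functions.  The span is computed with the multiplication theorem
`L(A) L(B) = L(A + B)` (`Lib/RR/H259.L_mul_L`, degrees `≥ 4 g`) and Riemann–Roch: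
monomials of degree `e` in the basis `x` span `L(e m ∞)`  (`span_monomials_eq`).
-/
import Fermat.Agent.S17.H410.RankEv
import Fermat.Agent.S17.H710.Wall.Defs
import Fermat.Agent.Lib.RR.H259.Mult
import Fermat.Agent.Lib.RR.Duality
import Fermat.Agent.Lib.RR.Adeles

set_option autoImplicit false

noncomputable section

namespace Fermat.Agent.S17.H410

open AlgebraicCurve MvPolynomial
open Fermat.Agent.Lib.RR Fermat.Agent.S17.HWall Fermat.Agent.S17.H440 Fermat.Agent.S17.Wall

variable {K F : Type*} [Field K] [Field F] [Algebra K F]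

/-! ## Generalities -/

/-- The span of the products `∏ i, f i (s i)` is the product of the spans. -/
theorem span_range_prod410 {ι τ : Type*} [Fintype ι] (f : ι → τ → F) :
    Submodule.span K (Set.range fun s : ι → τ => ∏ i, f i (s i))
      = ∏ i, Submodule.span K (Set.range (f i)) := by
  classical
  rw [Submodule.prod_span]
  congr 1
  ext a
  rw [Set.mem_fintype_prod]
  constructor
  · rintro ⟨s, rfl⟩
    exact ⟨fun i => f i (s i), fun i => ⟨s i, rfl⟩, rfl⟩
  · rintro ⟨g, hg, rfl⟩
    choose s hs using hg
    exact ⟨s, by simp only [hs]⟩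

/-- Multiplication by a nonzero element preserves the dimension of a span. -/
theorem finrank_span_mul_left410 {τ : Type*} (c : F) (hc : c ≠ 0) (f : τ → F) :
    Module.finrank K (Submodule.span K (Set.range fun s => c * f s))
      = Module.finrank K (Submodule.span K (Set.range f)) := by
  have h1 : (Set.range fun s => c * f s) = (LinearMap.mulLeft K c) '' Set.range f := by
    rw [← Set.range_comp]
    rfl
  have hinj : Function.Injective (LinearMap.mulLeft K c) := fun a b h =>
    mul_left_cancel₀ hc h
  rw [h1, ← Submodule.map_span,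
    LinearEquiv.finrank_eq (Submodule.equivMapOfInjective _ hinj _).symm]

section Emb

variable [FF1 K F] (E : EmbData K F)

theorem aeval_linForm410 (a : Fin (E.r + 1) → K) : aeval E.x (linForm a) = lin E.x a := by
  unfold linForm lin
  rw [map_sum]
  refine Finset.sum_congr rfl fun i _ => ?_
  rw [map_mul, aeval_C, aeval_X, Algebra.smul_def]

theorem aeval_monoOrd410 {e : ℕ} (α : Fin e → Fin (E.r + 1)) :
    aeval E.x (monoOrd (K := K) α) = ∏ k, E.x (α k) := by
  unfold monoOrd
  rw [map_prod]
  simp

theorem one_le_m410 : 1 ≤ E.m := by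
  have := E.hm
  omega

theorem degree_smul_prim410 (vinf : Place K F) (n : ℕ) :
    Divisor.degree (n • prim vinf) = n := by
  rw [map_nsmul, degree_prim']
  simp

/-! ## Monomials span `L(e m ∞)` -/

variable {E}

theorem pow_L_eq410 [Infinite K] (hBig : Big E) (e : ℕ) :
    (riemannRochSpace (E.m • prim E.vinf)) ^ e = riemannRochSpace ((e * E.m) • prim E.vinf) := by
  have hg : 4 * (genusFF K F : ℤ) ≤ E.m := by
    rw [genusFF_eq_genusR]
    have : 4 * genusR K F + 1 ≤ E.m := hBig
    omega
  induction e with
  | zero =>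
    rw [pow_zero, Nat.zero_mul, zero_nsmul, L_zero, Submodule.one_eq_range]
  | succ e ih =>
    rcases Nat.eq_zero_or_pos e with h0 | hpos
    · subst h0
      rw [zero_add, pow_one, one_mul]
    · rw [pow_succ, ih, Nat.succ_mul, add_nsmul]
      refine H259.L_mul_L ?_ ?_
      · rw [degree_smul_prim410]
        have : (E.m : ℤ) ≤ ((e * E.m : ℕ) : ℤ) := by
          exact_mod_cast Nat.le_mul_of_pos_left E.m hpos
        omega
      · rw [degree_smul_prim410]
        exact hg

theorem span_monomials_eq [Infinite K] (hBig : Big E) (e : ℕ) :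
    Submodule.span K (Set.range fun α : Fin e → Fin (E.r + 1) => ∏ k, E.x (α k))
      = riemannRochSpace ((e * E.m) • prim E.vinf) := by
  rw [span_range_prod410 (K := K) (fun _ : Fin e => E.x)]
  rw [Finset.prod_const, Finset.card_univ, Fintype.card_fin, E.x_span]
  exact pow_L_eq410 hBig e

/-! ## The leaf -/

variable (E)

/-- **Wall leaf G-MINOR-a.** -/
theorem minorA [Infinite K] (hBig : Big E) : MinorAStatement E := by
  intro L Q hQ hL a ha
  have hm := one_le_m410 E
  have hdeg : 1 + (E.m - 1) = E.m := by omega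
  -- the forms
  set p : Unit × (Fin (E.m - 1) → Fin (E.r + 1)) → MvPolynomial (Fin (E.r + 1)) K :=
    fun t => linForm a * monoOrd t.2 with hp
  have hphom : ∀ t, (p t).IsHomogeneous E.m := by
    intro t
    have := (linForm_isHomogeneous a).mul (monoOrd_isHomogeneous (K := K) t.2)
    rwa [hdeg] at this
  have hrows : (wMat (e := E.m - 1) (fun _ : Unit => a) fun t => E.pt (Q t))
      = fun s => fun t => eval (E.pt (Q t)) (p s) := by
    funext s t
    exact wMat_eq_eval _ _ s t
  rw [hrows, finrank_span_eval_eq E E.m p hphom Q hQ hL]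
  -- the span of the functions
  have h2 : (fun s : Unit × (Fin (E.m - 1) → Fin (E.r + 1)) => aeval E.x (p s))
      = fun s => lin E.x a * ∏ k, E.x (s.2 k) := by
    funext s
    simp only [hp, map_mul, aeval_linForm410, aeval_monoOrd410]
  rw [h2, finrank_span_mul_left410 (K := K) (lin E.x a) (E.lin_ne_zero ha)
    (fun s : Unit × (Fin (E.m - 1) → Fin (E.r + 1)) => ∏ k, E.x (s.2 k))]
  have h3 : (Set.range fun s : Unit × (Fin (E.m - 1) → Fin (E.r + 1)) => ∏ k, E.x (s.2 k))
      = Set.range fun α : Fin (E.m - 1) → Fin (E.r + 1) => ∏ k, E.x (α k) := by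
    ext f
    constructor
    · rintro ⟨s, rfl⟩
      exact ⟨s.2, rfl⟩
    · rintro ⟨α, rfl⟩
      exact ⟨((), α), rfl⟩
  rw [h3, span_monomials_eq hBig]
  -- Riemann–Roch
  have hg : 2 * genusR K F + 1 ≤ E.m := E.hm
  have hRR := ell_eq_of_degree_gt (K := K) (F := F)
    (D := ((E.m - 1) * E.m) • prim E.vinf) (by
      rw [degree_smul_prim410, genusFF_eq_genusR]
      have h4 : E.m - 1 ≤ (E.m - 1) * E.m := Nat.le_mul_of_pos_right _ hm
      generalize (E.m - 1) * E.m = X at h4 ⊢
      omega)
  rw [degree_smul_prim410, genusFF_eq_genusR] at hRR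
  show ell (((E.m - 1) * E.m) • prim E.vinf) = kapN E E.m
  unfold kapN
  have h5 : (E.m - 1) * E.m = E.m * E.m - E.m := by
    rw [Nat.sub_mul, one_mul]
  have h6 : E.m ≤ E.m * E.m := Nat.le_mul_of_pos_left E.m (by omega)
  rw [h5] at hRR ⊢
  have h7 : ((E.m * E.m - E.m : ℕ) : ℤ) = (E.m * E.m : ℕ) - (E.m : ℤ) := by
    rw [Nat.cast_sub h6]
  rw [h7] at hRR
  have h8 : 0 ≤ (ell ((E.m * E.m - E.m) • prim E.vinf) : ℤ) := Int.natCast_nonneg _
  omega

end Emb

end Fermat.Agent.S17.H410
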